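/-
S48, block BB, sub-block E (owner helper203): port of `GAL/E` to `FB F₀`.

* `galF F₀ σ` : the coefficientwise action of `σ ∈ G_ℚ` on `FB F₀`
* `rho F₀ n`  : the Galois representation on the Kummer module `M.W (FB F₀) n` (helper144's `M/Kum.lean`)
* `autW D n`  : the endomorphism of the Kummer module induced by a `ℚ̄`-automorphism `D` of `FB F₀`
* `KL1 F₀ A n`: the key lemma for `F₀` (verbatim `GAL.KL` with `modularFunctionFieldFull N` replaced by
                `F₀`); deliverable of block KL, a hypothesis here.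
-/
import Fermat.Agent.S48.BB.Base
import Fermat.Agent.S48.BB.M.Kum
import Fermat.Agent.GAL.E.Defs

set_option autoImplicit false

noncomputable section

namespace Fermat.Agent.S48.BB.E

open ModularCurve AlgebraicCurve Fermat.Agent.S24 Fermat.Agent.S48.BB.M
open Fermat.Agent.GAL.E (GQ incl red)

variable (F₀ : IntermediateField ℚ (LaurentSeries ℚ))

/-- shortcut instance (the generic search is slow) -/
instance instAlgebraFB : Algebra Kbar (FB F₀) := inferInstance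

/-- The Kummer module of `FB F₀`. -/
abbrev W1 (n : ℕ) : Type := M.W (FB F₀) n

/-- The coefficientwise action of `σ ∈ G_ℚ` on `FB F₀`. -/
def galF (σ : GQ) : FB F₀ ≃+* FB F₀ := arithmeticRingAut F₀ σ

variable {F₀}

theorem coe_galF (σ : GQ) (x : FB F₀) :
    (galF F₀ σ x : LaurentSeries Kbar) = coeffMap (σ : Kbar →+* Kbar) (x : LaurentSeries Kbar) := rfl

theorem galF_mul (σ τ : GQ) (x : FB F₀) : galF F₀ (σ * τ) x = galF F₀ σ (galF F₀ τ x) := by
  apply Subtype.ext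
  rw [coe_galF, coe_galF, coe_galF, coeffMap_coeffMap]
  exact coeffMap_congr (RingHom.ext fun _ => rfl) _

theorem galF_one (x : FB F₀) : galF F₀ 1 x = x := by
  apply Subtype.ext
  rw [coe_galF, show ((1 : GQ) : Kbar →+* Kbar) = RingHom.id Kbar from RingHom.ext fun _ => rfl,
    coeffMap_id]

theorem galF_algebraMap (σ : GQ) (c : Kbar) :
    galF F₀ σ (algebraMap Kbar (FB F₀) c) = algebraMap Kbar (FB F₀) (σ c) :=
  arithmeticRingAut_algebraMap _ σ c

variable (F₀) in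
/-- The action of `G_ℚ` on units. -/
def galU (σ : GQ) : (FB F₀)ˣ →* (FB F₀)ˣ :=
  Units.map ((galF F₀ σ : FB F₀ →+* FB F₀) : FB F₀ →* FB F₀)

theorem coe_galU (σ : GQ) (u : (FB F₀)ˣ) :
    ((galU F₀ σ u : (FB F₀)ˣ) : FB F₀) = galF F₀ σ u := rfl

theorem isKum_galF {n : ℕ} {u : FB F₀} (hu : IsKum (FB F₀) n u) (σ : GQ) :
    IsKum (FB F₀) n (galF F₀ σ u) := by
  intro v
  set g := arithmeticGalois (L := Kbar) F₀ σ with hg
  have h := SemilinearAut.ord_smul g (g⁻¹ • v) u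
  rw [smul_inv_smul] at h
  have h2 : g • u = galF F₀ σ u := rfl
  rw [← h2, h]
  exact hu _

theorem galU_mem_kum {n : ℕ} (σ : GQ) (u : (FB F₀)ˣ) (hu : u ∈ kum (FB F₀) n) :
    galU F₀ σ u ∈ kum (FB F₀) n := isKum_galF hu σ

variable (F₀) in
/-- The Galois representation on the Kummer module. -/
def rho (n : ℕ) : GQ →* AddMonoid.End (W1 F₀ n) where
  toFun σ := mapW (galU F₀ σ) (galU_mem_kum σ)
  map_one' := by
    refine AddMonoidHom.ext fun x => ?_
    obtain ⟨u, rfl⟩ := cls_surjective x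
    rw [mapW_cls]
    refine congrArg cls (Subtype.ext (Units.ext ?_))
    exact galF_one _
  map_mul' σ τ := by
    refine AddMonoidHom.ext fun x => ?_
    obtain ⟨u, rfl⟩ := cls_surjective x
    show mapW (galU F₀ (σ * τ)) (galU_mem_kum _) (cls u) =
      mapW (galU F₀ σ) (galU_mem_kum σ) (mapW (galU F₀ τ) (galU_mem_kum τ) (cls u))
    rw [mapW_cls, mapW_cls, mapW_cls]
    refine congrArg cls (Subtype.ext (Units.ext ?_))
    exact galF_mul σ τ _

theorem rho_cls {n : ℕ} (σ : GQ) (u : kum (FB F₀) n) :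
    rho F₀ n σ (cls u) =
      cls (⟨galU F₀ σ (u : (FB F₀)ˣ), galU_mem_kum σ (u : (FB F₀)ˣ) u.2⟩ : kum (FB F₀) n) :=
  mapW_cls (galU F₀ σ) (galU_mem_kum σ) u

/-! ### Automorphisms over `ℚ̄` (diamond operators) -/

theorem isKum_algEquiv {n : ℕ} (D : FB F₀ ≃ₐ[Kbar] FB F₀) {u : FB F₀} (hu : IsKum (FB F₀) n u) :
    IsKum (FB F₀) n (D u) := by
  intro v
  have h := Place.ord_smul D (D⁻¹ • v) u
  rw [smul_inv_smul] at h
  rw [h]
  exact hu _

/-- The action of an automorphism on units. -/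
def autU (D : FB F₀ ≃ₐ[Kbar] FB F₀) : (FB F₀)ˣ →* (FB F₀)ˣ :=
  Units.map ((D : FB F₀ →+* FB F₀) : FB F₀ →* FB F₀)

theorem coe_autU (D : FB F₀ ≃ₐ[Kbar] FB F₀) (u : (FB F₀)ˣ) :
    ((autU D u : (FB F₀)ˣ) : FB F₀) = D u := rfl

theorem autU_mem_kum {n : ℕ} (D : FB F₀ ≃ₐ[Kbar] FB F₀) (u : (FB F₀)ˣ)
    (hu : u ∈ kum (FB F₀) n) : autU D u ∈ kum (FB F₀) n := isKum_algEquiv D hu

/-- The endomorphism of the Kummer module induced by an automorphism of `FB F₀` over `ℚ̄`. -/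
def autW (D : FB F₀ ≃ₐ[Kbar] FB F₀) (n : ℕ) : AddMonoid.End (W1 F₀ n) :=
  mapW (autU D) (autU_mem_kum D)

theorem autW_cls {n : ℕ} (D : FB F₀ ≃ₐ[Kbar] FB F₀) (u : kum (FB F₀) n) :
    autW D n (cls u) =
      cls (⟨autU D (u : (FB F₀)ˣ), autU_mem_kum D (u : (FB F₀)ˣ) u.2⟩ : kum (FB F₀) n) :=
  mapW_cls (autU D) (autU_mem_kum D) u

theorem autW_one (n : ℕ) : autW (1 : FB F₀ ≃ₐ[Kbar] FB F₀) n = 1 := by
  refine AddMonoidHom.ext fun x => ?_
  obtain ⟨u, rfl⟩ := cls_surjective x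
  show autW (1 : FB F₀ ≃ₐ[Kbar] FB F₀) n (cls u) = cls u
  rw [autW_cls]
  rfl

theorem autW_mul (D D' : FB F₀ ≃ₐ[Kbar] FB F₀) (n : ℕ) :
    autW (D * D') n = autW D n * autW D' n := by
  refine AddMonoidHom.ext fun x => ?_
  obtain ⟨u, rfl⟩ := cls_surjective x
  show autW (D * D') n (cls u) = autW D n (autW D' n (cls u))
  rw [autW_cls, autW_cls, autW_cls]
  rfl

/-- An automorphism defined over `ℚ` commutes with the Galois action. -/
theorem commute_rho_autW (D : FB F₀ ≃ₐ[Kbar] FB F₀)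
    (hD : ∀ (σ : GQ) (u : FB F₀), galF F₀ σ (D u) = D (galF F₀ σ u)) (n : ℕ) (σ : GQ) :
    Commute (rho F₀ n σ) (autW D n) := by
  refine AddMonoidHom.ext fun x => ?_
  obtain ⟨u, rfl⟩ := cls_surjective x
  show rho F₀ n σ (autW D n (cls u)) = autW D n (rho F₀ n σ (cls u))
  rw [autW_cls, rho_cls, rho_cls, autW_cls]
  refine congrArg cls (Subtype.ext (Units.ext ?_))
  exact hD σ _

/-! ### The key lemma -/

variable (F₀) in
/-- The key lemma for `F₀`, the valuation subring `A` of `ℚ̄` and the exponent `n`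
(`GAL.KL` with `modularFunctionFieldFull N` replaced by `F₀`). -/
def KL1 (A : ValuationSubring Kbar) (n : ℕ) : Prop :=
  ∀ (P Q : LaurentSeries A)
    (hP : incl A P ∈ laurentBaseChange Kbar F₀) (hQ : incl A Q ∈ laurentBaseChange Kbar F₀),
    red A P = red A Q → red A Q ≠ 0 →
    IsKum (FB F₀) n ((⟨incl A P, hP⟩ : FB F₀) / ⟨incl A Q, hQ⟩) →
    ∃ u : FB F₀, (⟨incl A P, hP⟩ : FB F₀) / ⟨incl A Q, hQ⟩ = u ^ n

end Fermat.Agent.S48.BB.E

end
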