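/-
S48, block BB, sub-block E (owner helper203).  INTERFACE with block T (existence of the Hecke
operators): everything the Kummer module needs to know about `T_p` and the diamond `D_p`.

`(T u)(q^p) = (D u)(q^(p²)) ∏_b u(ζ^b q)`.
-/
import Fermat.Agent.S48.BB.E.Defs
import Fermat.Agent.GAL.E.HeckeBasic

set_option autoImplicit false

noncomputable section

namespace Fermat.Agent.S48.BB.E

open ModularCurve AlgebraicCurve Fermat.Agent.S24 Fermat.Agent.S24.B Fermat.Agent.S48.BB.M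
open Fermat.Agent.GAL.E (GQ incl red qExpand_injective')

/-- A multiplicative Hecke operator with diamond
`u(q) ↦ (D u)(q^p) ∏_b u(ζ^b q^(1/p))` on `FB F₀`. -/
structure HeckeOp1 (F₀ : IntermediateField ℚ (LaurentSeries ℚ)) (p : ℕ) [NeZero p] where
  /-- the operator -/
  T : FB F₀ →* FB F₀
  /-- the diamond operator -/
  D : FB F₀ ≃ₐ[Kbar] FB F₀
  /-- `(T u)(q^p) = (D u)(q^(p²)) ∏_b u(ζ^b q)` -/
  qExpand_T : ∀ u : FB F₀, qExpand Kbar p ((T u : FB F₀) : LaurentSeries Kbar) =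
      qExpand Kbar (p * p) ((D u : FB F₀) : LaurentSeries Kbar) *
        ∏ b ∈ Finset.range p, twist (zetaK p ^ b) (u : LaurentSeries Kbar)
  /-- the diamond operator is defined over `ℚ` -/
  galF_D : ∀ (σ : GQ) (u : FB F₀), galF F₀ σ (D u) = D (galF F₀ σ u)
  /-- `T` preserves the elements whose divisor is divisible by `n` -/
  isKum : ∀ (n : ℕ) (u : FB F₀), IsKum (FB F₀) n u → IsKum (FB F₀) n (T u)

namespace HeckeOp1

variable {F₀ : IntermediateField ℚ (LaurentSeries ℚ)} {p : ℕ} [NeZero p] (H : HeckeOp1 F₀ p)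

/-- The operator on units. -/
def TU : (FB F₀)ˣ →* (FB F₀)ˣ := Units.map H.T

theorem coe_TU (u : (FB F₀)ˣ) : ((H.TU u : (FB F₀)ˣ) : FB F₀) = H.T u := rfl

theorem TU_mem_kum {n : ℕ} (u : (FB F₀)ˣ) (hu : u ∈ kum (FB F₀) n) : H.TU u ∈ kum (FB F₀) n :=
  H.isKum n u hu

/-- The Hecke operator on the Kummer module. -/
def TW (n : ℕ) : AddMonoid.End (W1 F₀ n) := mapW H.TU fun u hu => H.TU_mem_kum u hu

theorem TW_cls {n : ℕ} (u : kum (FB F₀) n) :
    H.TW n (cls u) =
      cls (⟨H.TU (u : (FB F₀)ˣ), H.TU_mem_kum (u : (FB F₀)ˣ) u.2⟩ : kum (FB F₀) n) :=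
  mapW_cls H.TU (fun u hu => H.TU_mem_kum u hu) u

/-- The diamond operator on the Kummer module. -/
def DW (n : ℕ) : AddMonoid.End (W1 F₀ n) := autW H.D n

theorem DW_cls {n : ℕ} (u : kum (FB F₀) n) :
    H.DW n (cls u) =
      cls (⟨autU H.D (u : (FB F₀)ˣ), autU_mem_kum H.D (u : (FB F₀)ˣ) u.2⟩ : kum (FB F₀) n) :=
  autW_cls H.D u

/-- the operator is determined by the diamond operator -/
theorem T_eq (H' : HeckeOp1 F₀ p) (h : H.D = H'.D) : H.T = H'.T := by
  refine MonoidHom.ext fun u => Subtype.ext (qExpand_injective' p ?_)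
  rw [H.qExpand_T, H'.qExpand_T, h]

/-- the coercion of a constant -/
theorem coe_algebraMap (c : Kbar) :
    ((algebraMap Kbar (FB F₀) c : FB F₀) : LaurentSeries Kbar) = HahnSeries.C c := by
  show algebraMap Kbar (LaurentSeries Kbar) c = HahnSeries.C c
  rw [algebraMap_laurentSeries_eq_single]
  rfl

theorem T_algebraMap (c : Kbar) :
    H.T (algebraMap Kbar (FB F₀) c) = algebraMap Kbar (FB F₀) (c ^ (p + 1)) := by
  refine Subtype.ext (qExpand_injective' p ?_)
  rw [H.qExpand_T, AlgEquiv.commutes, coe_algebraMap, coe_algebraMap, qExpand_C, qExpand_C]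
  simp only [twist_C, Finset.prod_const, Finset.card_range]
  rw [← map_pow, ← map_mul, pow_succ, mul_comm]

/-- `σ` permutes the `p`-th roots of unity and commutes with `D`, so it commutes with `T_p` -/
theorem galF_T (σ : GQ) (u : FB F₀) : galF F₀ σ (H.T u) = H.T (galF F₀ σ u) := by
  refine Subtype.ext (qExpand_injective' p ?_)
  rw [H.qExpand_T, coe_galF, coe_galF, ← GAL.E.HeckeBasic.coeffMap_qExpand, H.qExpand_T, map_mul,
    GAL.E.HeckeBasic.coeffMap_qExpand, map_prod, ← H.galF_D, coe_galF]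
  congr 1
  simp only [GAL.E.HeckeBasic.coeffMap_twist, map_pow]
  have hξ : IsPrimitiveRoot (Units.map ((σ : Kbar →+* Kbar) : Kbar →* Kbar) (zetaK p)) p := by
    rw [← IsPrimitiveRoot.coe_units_iff, Units.coe_map]
    exact (IsPrimitiveRoot.coe_units_iff.2 (isPrimitiveRoot_zetaK p)).map_of_injective
      (f := (σ : Kbar →+* Kbar)) σ.injective
  exact GAL.E.HeckeBasic.prod_pow_eq (isPrimitiveRoot_zetaK p) hξ
    (fun z => twist z (coeffMap (σ : Kbar →+* Kbar) (u : LaurentSeries Kbar)))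

theorem commute_rho_TW (n : ℕ) (σ : GQ) : Commute (rho F₀ n σ) (H.TW n) := by
  refine AddMonoidHom.ext fun x => ?_
  obtain ⟨u, rfl⟩ := cls_surjective x
  show rho F₀ n σ (H.TW n (cls u)) = H.TW n (rho F₀ n σ (cls u))
  rw [H.TW_cls, rho_cls, rho_cls, H.TW_cls]
  refine congrArg cls (Subtype.ext (Units.ext ?_))
  exact H.galF_T σ _

theorem commute_rho_DW (n : ℕ) (σ : GQ) : Commute (rho F₀ n σ) (H.DW n) :=
  commute_rho_autW H.D H.galF_D n σ

theorem T_ne_zero {b : FB F₀} (hb : b ≠ 0) : H.T b ≠ 0 :=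
  ((isUnit_iff_ne_zero.2 hb).map H.T).ne_zero

theorem T_div (a : FB F₀) {b : FB F₀} (hb : b ≠ 0) : H.T (a / b) = H.T a / H.T b := by
  rw [eq_div_iff (H.T_ne_zero hb), ← map_mul, div_mul_cancel₀ _ hb]

end HeckeOp1

end Fermat.Agent.S48.BB.E

end
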