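/-
S48, block BB, sub-block E (owner helper203).  Gauss normalisation of the elements of `FB F₀`, for a
field `F₀ ⊆ ℚ((q))` generated by series with integer coefficients (port of `GAL/E/{Bound,Scaling}`).
-/
import Fermat.Agent.S48.BB.E.Defs
import Fermat.Agent.GAL.E.Scaling

set_option autoImplicit false

noncomputable section

namespace Fermat.Agent.S48.BB.E

open ModularCurve AlgebraicCurve Fermat.Agent.S24 Fermat.Agent.S48.BB.M
open Fermat.Agent.GAL.E (GQ incl red)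

/-- `F₀` is generated over `ℚ` by series with integer coefficients. -/
def IntGen (F₀ : IntermediateField ℚ (LaurentSeries ℚ)) : Prop :=
  ∃ S : Set (LaurentSeries ℚ), F₀ = IntermediateField.adjoin ℚ S ∧
    ∀ s ∈ S, ∀ k : ℤ, ∃ n : ℤ, s.coeff k = (n : ℚ)

theorem IntGen.sup {F₀ F₁ : IntermediateField ℚ (LaurentSeries ℚ)} (h₀ : IntGen F₀)
    (h₁ : IntGen F₁) : IntGen (F₀ ⊔ F₁) := by
  obtain ⟨S₀, rfl, hS₀⟩ := h₀
  obtain ⟨S₁, rfl, hS₁⟩ := h₁
  refine ⟨S₀ ∪ S₁, (IntermediateField.adjoin_union ℚ).symm, ?_⟩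
  rintro s (hs | hs)
  · exact hS₀ s hs
  · exact hS₁ s hs

theorem coeffEmb_mem_adjoin_image (S : Set (LaurentSeries ℚ)) {x : LaurentSeries ℚ}
    (hx : x ∈ IntermediateField.adjoin ℚ S) :
    coeffEmb Kbar x ∈ IntermediateField.adjoin Kbar (coeffEmb Kbar '' S) := by
  induction hx using IntermediateField.adjoin_induction with
  | mem y hy => exact IntermediateField.subset_adjoin Kbar _ ⟨y, hy, rfl⟩
  | algebraMap r =>
    rw [Formal.coeffEmb_algebraMap]
    exact IntermediateField.algebraMap_mem _ _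
  | add y z _ _ hy hz => rw [map_add]; exact add_mem hy hz
  | inv y _ hy => rw [map_inv₀]; exact inv_mem hy
  | mul y z _ _ hy hz => rw [map_mul]; exact mul_mem hy hz

theorem laurentBaseChange_adjoin_le (S : Set (LaurentSeries ℚ)) :
    laurentBaseChange Kbar (IntermediateField.adjoin ℚ S) ≤
      IntermediateField.adjoin Kbar (coeffEmb Kbar '' S) := by
  rw [laurentBaseChange, IntermediateField.adjoin_le_iff]
  rintro _ ⟨x, hx, rfl⟩
  exact coeffEmb_mem_adjoin_image S hx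

/-- elements of the `ℚ̄`-algebra generated by series with integer coefficients have bounded
coefficients in a number field -/
theorem exists_bound_of_mem_adjoin (A : ValuationSubring Kbar) (S : Set (LaurentSeries ℚ))
    (hS : ∀ s ∈ S, ∀ k : ℤ, ∃ n : ℤ, s.coeff k = (n : ℚ))
    (z : LaurentSeries Kbar) (hz : z ∈ Algebra.adjoin Kbar (coeffEmb Kbar '' S)) :
    (∃ L : IntermediateField ℚ Kbar, FiniteDimensional ℚ L ∧ ∀ k, z.coeff k ∈ L) ∧
      ∃ c : Kbar, c ≠ 0 ∧ c ∈ A ∧ ∀ k, c * z.coeff k ∈ A := by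
  induction hz using Algebra.adjoin_induction with
  | mem y hy =>
    obtain ⟨s, hs, rfl⟩ := hy
    have hint : ∀ k, ∃ n : ℤ, (coeffEmb Kbar s).coeff k = (n : Kbar) := by
      intro k
      obtain ⟨n, hn⟩ := hS s hs k
      exact ⟨n, by rw [coeffEmb_coeff, hn, map_intCast]⟩
    refine ⟨⟨⊥, inferInstance, fun k => ?_⟩, 1, one_ne_zero, one_mem _, fun k => ?_⟩
    · obtain ⟨n, hn⟩ := hint k
      rw [hn]
      exact intCast_mem _ n
    · obtain ⟨n, hn⟩ := hint k
      rw [hn, one_mul]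
      exact intCast_mem _ n
  | algebraMap a =>
    have hcoeff : ∀ k, (algebraMap Kbar (LaurentSeries Kbar) a).coeff k = a ∨
        (algebraMap Kbar (LaurentSeries Kbar) a).coeff k = 0 := by
      intro k
      rw [algebraMap_laurentSeries_eq_single]
      by_cases hk : k = 0
      · left; rw [hk, HahnSeries.coeff_single_same]
      · right; rw [HahnSeries.coeff_single_of_ne hk]
    refine ⟨⟨IntermediateField.adjoin ℚ {a},
      IntermediateField.adjoin.finiteDimensional (GAL.E.isIntegral_rat_Kbar a), fun k => ?_⟩, ?_⟩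
    · rcases hcoeff k with h | h <;> rw [h]
      · exact IntermediateField.mem_adjoin_simple_self ℚ a
      · exact zero_mem _
    · rcases A.mem_or_inv_mem a with ha | ha
      · refine ⟨1, one_ne_zero, one_mem _, fun k => ?_⟩
        rcases hcoeff k with h | h <;> rw [h, one_mul]
        · exact ha
        · exact zero_mem _
      · by_cases ha0 : a = 0
        · refine ⟨1, one_ne_zero, one_mem _, fun k => ?_⟩
          rcases hcoeff k with h | h <;> rw [h, one_mul]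
          · rw [ha0]; exact zero_mem _
          · exact zero_mem _
        · refine ⟨a⁻¹, inv_ne_zero ha0, ha, fun k => ?_⟩
          rcases hcoeff k with h | h <;> rw [h]
          · rw [inv_mul_cancel₀ ha0]; exact one_mem _
          · rw [mul_zero]; exact zero_mem _
  | add x y _ _ hx hy =>
    obtain ⟨⟨L₁, hL₁, h₁⟩, c₁, hc₁, hc₁A, hA₁⟩ := hx
    obtain ⟨⟨L₂, hL₂, h₂⟩, c₂, hc₂, hc₂A, hA₂⟩ := hy
    refine ⟨⟨L₁ ⊔ L₂, IntermediateField.finiteDimensional_sup L₁ L₂, fun k => ?_⟩,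
      c₁ * c₂, mul_ne_zero hc₁ hc₂, mul_mem hc₁A hc₂A, fun k => ?_⟩
    · rw [HahnSeries.coeff_add]
      exact add_mem ((le_sup_left : L₁ ≤ L₁ ⊔ L₂) (h₁ k)) ((le_sup_right : L₂ ≤ L₁ ⊔ L₂) (h₂ k))
    · rw [HahnSeries.coeff_add]
      have : c₁ * c₂ * (x.coeff k + y.coeff k) =
          c₂ * (c₁ * x.coeff k) + c₁ * (c₂ * y.coeff k) := by ring
      rw [this]
      exact add_mem (mul_mem hc₂A (hA₁ k)) (mul_mem hc₁A (hA₂ k))
  | mul x y _ _ hx hy =>
    obtain ⟨⟨L₁, hL₁, h₁⟩, c₁, hc₁, hc₁A, hA₁⟩ := hx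
    obtain ⟨⟨L₂, hL₂, h₂⟩, c₂, hc₂, hc₂A, hA₂⟩ := hy
    refine ⟨⟨L₁ ⊔ L₂, IntermediateField.finiteDimensional_sup L₁ L₂, fun k => ?_⟩,
      c₁ * c₂, mul_ne_zero hc₁ hc₂, mul_mem hc₁A hc₂A, fun k => ?_⟩
    · rw [HahnSeries.coeff_mul]
      refine sum_mem fun ij _ => ?_
      exact mul_mem ((le_sup_left : L₁ ≤ L₁ ⊔ L₂) (h₁ _)) ((le_sup_right : L₂ ≤ L₁ ⊔ L₂) (h₂ _))
    · rw [HahnSeries.coeff_mul, Finset.mul_sum]
      refine sum_mem fun ij _ => ?_
      have : c₁ * c₂ * (x.coeff ij.1 * y.coeff ij.2) =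
          (c₁ * x.coeff ij.1) * (c₂ * y.coeff ij.2) := by ring
      rw [this]
      exact mul_mem (hA₁ _) (hA₂ _)

/-- every element of `FB (adjoin ℚ S)` is a quotient of two elements of the algebra generated by
`S` -/
theorem exists_div_of_mem (S : Set (LaurentSeries ℚ)) (u : FB (IntermediateField.adjoin ℚ S)) :
    ∃ a b : LaurentSeries Kbar, a ∈ Algebra.adjoin Kbar (coeffEmb Kbar '' S) ∧
      b ∈ Algebra.adjoin Kbar (coeffEmb Kbar '' S) ∧ b ≠ 0 ∧ (u : LaurentSeries Kbar) = a / b := by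
  have h1 : (u : LaurentSeries Kbar) ∈ IntermediateField.adjoin Kbar (coeffEmb Kbar '' S) :=
    laurentBaseChange_adjoin_le S u.2
  obtain ⟨r, hr, s, hs, hu⟩ := IntermediateField.mem_adjoin_iff_div.mp h1
  by_cases hs0 : s = 0
  · refine ⟨0, 1, zero_mem _, one_mem _, one_ne_zero, ?_⟩
    rw [hu, hs0, div_zero, zero_div]
  · exact ⟨r, s, hr, hs, hs0, hu⟩

theorem adjoin_le_FB (S : Set (LaurentSeries ℚ)) (z : LaurentSeries Kbar)
    (hz : z ∈ Algebra.adjoin Kbar (coeffEmb Kbar '' S)) :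
    z ∈ laurentBaseChange Kbar (IntermediateField.adjoin ℚ S) := by
  have h : Algebra.adjoin Kbar (coeffEmb Kbar '' S) ≤
      (laurentBaseChange Kbar (IntermediateField.adjoin ℚ S)).toSubalgebra := by
    refine Algebra.adjoin_le ?_
    rintro _ ⟨s, hs, rfl⟩
    exact coeffEmb_mem_laurentBaseChange Kbar (IntermediateField.subset_adjoin ℚ S hs)
  exact h hz

theorem C_mem_FB (F₀ : IntermediateField ℚ (LaurentSeries ℚ)) (a : Kbar) :
    (HahnSeries.C a : LaurentSeries Kbar) ∈ laurentBaseChange Kbar F₀ := by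
  have h := (laurentBaseChange Kbar F₀).algebraMap_mem a
  rwa [GAL.E.scaling_algebraMap] at h

/-- a nonzero element of the algebra generated by `S` is a constant times an `A`-integral series
with nonzero reduction -/
theorem exists_scaling_of_mem_adjoin (A : ValuationSubring Kbar) (ℓ : ℕ) (hℓ : ℓ.Prime)
    (hA : A.LiesOverPrime ℓ) (S : Set (LaurentSeries ℚ))
    (hS : ∀ s ∈ S, ∀ k : ℤ, ∃ n : ℤ, s.coeff k = (n : ℚ)) (z : LaurentSeries Kbar)
    (hz : z ∈ Algebra.adjoin Kbar (coeffEmb Kbar '' S)) (hz0 : z ≠ 0) :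
    ∃ (c : Kbar) (x : LaurentSeries A), c ≠ 0 ∧ red A x ≠ 0 ∧
      z = HahnSeries.C c * incl A x := by
  obtain ⟨⟨L, hLfin, hL⟩, c₀, hc₀, -, hbd⟩ := exists_bound_of_mem_adjoin A S hS z hz
  have hne : ∃ s ∈ Set.range z.coeff, s ≠ 0 := by
    by_contra hcon
    push Not at hcon
    apply hz0
    ext k
    exact hcon _ ⟨k, rfl⟩
  obtain ⟨s₀, ⟨k₀, hk₀⟩, hs₀, hmax⟩ := GAL.E.exists_max_of_bounded A ℓ hℓ hA L (Set.range z.coeff)
    (by rintro _ ⟨k, rfl⟩; exact hL k) hne c₀ hc₀ (by rintro _ ⟨k, rfl⟩; exact hbd k)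
  obtain ⟨x, hx⟩ := GAL.E.exists_incl_eq A (HahnSeries.C s₀⁻¹ * z) (fun k => by
    rw [GAL.E.scaling_coeff_C_mul, mul_comm, ← div_eq_mul_inv]
    exact hmax _ ⟨k, rfl⟩)
  refine ⟨s₀, x, hs₀, ?_, ?_⟩
  · intro hred
    have h1 : (red A x).coeff k₀ = 0 := by rw [hred]; rfl
    rw [GAL.E.coeff_red] at h1
    have h2 : ((x.coeff k₀ : A) : Kbar) = 1 := by
      rw [← GAL.E.coeff_incl, hx, GAL.E.scaling_coeff_C_mul, hk₀, inv_mul_cancel₀ hs₀]
    have h3 : x.coeff k₀ = 1 := Subtype.ext h2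
    rw [h3, map_one] at h1
    exact one_ne_zero h1
  · rw [hx, ← mul_assoc, ← map_mul, mul_inv_cancel₀ hs₀, map_one, one_mul]

/-- **Gauss normalisation**: every nonzero element of `FB F₀` is a constant times a quotient of two
`A`-integral elements of `FB F₀` with nonzero reductions. -/
theorem exists_scaling {F₀ : IntermediateField ℚ (LaurentSeries ℚ)} (hG : IntGen F₀)
    (A : ValuationSubring Kbar) (ℓ : ℕ) (hℓ : ℓ.Prime) (hA : A.LiesOverPrime ℓ)
    (u : FB F₀) (hu : u ≠ 0) :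
    ∃ (c : Kbar) (x y : LaurentSeries A) (hx : incl A x ∈ laurentBaseChange Kbar F₀)
      (hy : incl A y ∈ laurentBaseChange Kbar F₀), c ≠ 0 ∧ red A x ≠ 0 ∧ red A y ≠ 0 ∧
      u = algebraMap Kbar (FB F₀) c * ((⟨incl A x, hx⟩ : FB F₀) / ⟨incl A y, hy⟩) := by
  obtain ⟨S, rfl, hS⟩ := hG
  obtain ⟨a, b, ha, hb, hb0, hab⟩ := exists_div_of_mem S u
  have ha0 : a ≠ 0 := by
    rintro rfl
    apply hu
    apply Subtype.ext
    rw [hab, zero_div]
    rfl
  obtain ⟨ca, x, hca, hrx, hax⟩ := exists_scaling_of_mem_adjoin A ℓ hℓ hA S hS a ha ha0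
  obtain ⟨cb, y, hcb, hry, hby⟩ := exists_scaling_of_mem_adjoin A ℓ hℓ hA S hS b hb hb0
  have hx : incl A x ∈ laurentBaseChange Kbar (IntermediateField.adjoin ℚ S) := by
    have : incl A x = HahnSeries.C ca⁻¹ * a := by
      rw [hax, ← mul_assoc, ← map_mul, inv_mul_cancel₀ hca, map_one, one_mul]
    rw [this]
    exact mul_mem (C_mem_FB _ _) (adjoin_le_FB S a ha)
  have hy : incl A y ∈ laurentBaseChange Kbar (IntermediateField.adjoin ℚ S) := by
    have : incl A y = HahnSeries.C cb⁻¹ * b := by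
      rw [hby, ← mul_assoc, ← map_mul, inv_mul_cancel₀ hcb, map_one, one_mul]
    rw [this]
    exact mul_mem (C_mem_FB _ _) (adjoin_le_FB S b hb)
  refine ⟨ca / cb, x, y, hx, hy, div_ne_zero hca hcb, hrx, hry, ?_⟩
  apply Subtype.ext
  have hC : ((algebraMap Kbar (FB (IntermediateField.adjoin ℚ S)) (ca / cb) :
      FB (IntermediateField.adjoin ℚ S)) : LaurentSeries Kbar) = HahnSeries.C (ca / cb) := by
    exact GAL.E.scaling_algebraMap _
  have hCb : (HahnSeries.C cb : LaurentSeries Kbar) ≠ 0 := by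
    intro h
    apply hcb
    have := congrArg (fun s : LaurentSeries Kbar => s.coeff 0) h
    simpa using this
  have hy0 : incl A y ≠ 0 := by
    intro h
    apply hb0
    rw [hby, h, mul_zero]
  show (u : LaurentSeries Kbar) =
    ((algebraMap Kbar (FB (IntermediateField.adjoin ℚ S)) (ca / cb) :
      FB (IntermediateField.adjoin ℚ S)) : LaurentSeries Kbar) * (incl A x / incl A y)
  rw [hC, hab, hax, hby, map_div₀]
  field_simp

end Fermat.Agent.S48.BB.E

end
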