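/-
S48, block BB, sub-block E (owner helper203).  A small calculus of reductions of Laurent series over
`ℚ̄` "up to a constant": `RedQ A z α β` says that `z = c · a / b` with `c ∈ ℚ̄ˣ`, `a, b ∈ A((q))` of
nonzero reductions `α, β`.  No membership in a function field is required, so that the calculus
applies to `q ↦ q^p`, twists, and to the diamond operators (whose integrality is not known a priori).
-/
import Fermat.Agent.S48.BB.E.Scaling
import Fermat.Agent.GAL.E.GalRed
import Fermat.Agent.GAL.E.HeckeRed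

set_option autoImplicit false

noncomputable section

namespace Fermat.Agent.S48.BB.E

open ModularCurve AlgebraicCurve Fermat.Agent.S24 Fermat.Agent.S24.B Fermat.Agent.S48.BB.M
open Fermat.Agent.GAL.E (GQ incl red)

theorem coeffMap_C' {R S : Type*} [CommRing R] [CommRing S] (f : R →+* S) (r : R) :
    coeffMap f (HahnSeries.C r : LaurentSeries R) = HahnSeries.C (f r) :=
  coeffMap_single f 0 r

theorem C_ne_zero' {R : Type*} [CommRing R] {r : R} (hr : r ≠ 0) :
    (HahnSeries.C r : LaurentSeries R) ≠ 0 := by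
  intro h
  apply hr
  have := congrArg (fun s : LaurentSeries R => s.coeff 0) h
  simpa using this

variable (A : ValuationSubring Kbar)

theorem incl_ne_zero_of_red {a : LaurentSeries A} (h : red A a ≠ 0) : incl A a ≠ 0 := by
  intro h0
  apply h
  have : a = 0 := GAL.E.incl_injective A (by rw [h0, map_zero])
  rw [this, map_zero]

/-- **Gauss lemma**: two `A`-integral series with nonzero reductions which are proportional over `ℚ̄`
are proportional by a unit of `A`. -/
theorem exists_unit_of_incl_eq (t : Kbar) (X Y : LaurentSeries A)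
    (h : incl A X = HahnSeries.C t * incl A Y) (hX : red A X ≠ 0) (hY : red A Y ≠ 0) :
    ∃ a : A, (a : Kbar) = t ∧ IsLocalRing.residue A a ≠ 0 ∧ X = HahnSeries.C a * Y := by
  by_cases ht : t ∈ A
  · have hXY : X = HahnSeries.C (⟨t, ht⟩ : A) * Y := by
      apply GAL.E.incl_injective A
      rw [map_mul, coeffMap_C', h]
      rfl
    refine ⟨⟨t, ht⟩, rfl, ?_, hXY⟩
    intro h0
    apply hX
    rw [hXY, map_mul, coeffMap_C', h0, map_zero, zero_mul]
  · exfalso
    have ht' : t⁻¹ ∈ A := (A.mem_or_inv_mem t).resolve_left ht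
    have ht0 : t ≠ 0 := by
      rintro rfl
      exact ht (zero_mem _)
    have hYX : Y = HahnSeries.C (⟨t⁻¹, ht'⟩ : A) * X := by
      apply GAL.E.incl_injective A
      rw [map_mul, coeffMap_C', h]
      show _ = HahnSeries.C t⁻¹ * _
      rw [← mul_assoc, ← map_mul, inv_mul_cancel₀ ht0, map_one, one_mul]
    have hres : IsLocalRing.residue A (⟨t⁻¹, ht'⟩ : A) ≠ 0 := by
      intro h0
      apply hY
      rw [hYX, map_mul, coeffMap_C', h0, map_zero, zero_mul]
    have hu : IsUnit (⟨t⁻¹, ht'⟩ : A) := by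
      rw [← IsLocalRing.notMem_maximalIdeal]
      intro hm
      exact hres ((IsLocalRing.residue_eq_zero_iff _).2 hm)
    obtain ⟨c, hc⟩ := hu.exists_right_inv
    have hc' : t⁻¹ * (c : Kbar) = 1 := congrArg (fun z : A => (z : Kbar)) hc
    have : (c : Kbar) = t := by
      rw [← mul_one t, ← hc', ← mul_assoc, mul_inv_cancel₀ ht0, one_mul]
    exact ht (this ▸ c.2)

/-- `z = c · a / b` with `c ∈ ℚ̄ˣ`, `a, b ∈ A((q))` of nonzero reductions `α`, `β`. -/
def RedQ (z : LaurentSeries Kbar) (α β : LaurentSeries (IsLocalRing.ResidueField A)) : Prop :=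
  α ≠ 0 ∧ β ≠ 0 ∧ ∃ (c : Kbar) (a b : LaurentSeries A), c ≠ 0 ∧ red A a = α ∧ red A b = β ∧
    z * incl A b = HahnSeries.C c * incl A a

variable {A}

theorem RedQ.one : RedQ A 1 1 1 :=
  ⟨one_ne_zero, one_ne_zero, 1, 1, 1, one_ne_zero, map_one _, map_one _, by
    rw [map_one, map_one]⟩

theorem RedQ.mul {z z' : LaurentSeries Kbar} {α β α' β' : LaurentSeries (IsLocalRing.ResidueField A)}
    (h : RedQ A z α β) (h' : RedQ A z' α' β') : RedQ A (z * z') (α * α') (β * β') := by
  obtain ⟨hα, hβ, c, a, b, hc, rfl, rfl, e⟩ := h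
  obtain ⟨hα', hβ', c', a', b', hc', rfl, rfl, e'⟩ := h'
  refine ⟨mul_ne_zero hα hα', mul_ne_zero hβ hβ', c * c', a * a', b * b', mul_ne_zero hc hc',
    map_mul _ _ _, map_mul _ _ _, ?_⟩
  rw [map_mul, map_mul, map_mul]
  calc z * z' * (incl A b * incl A b') = (z * incl A b) * (z' * incl A b') := by ring
    _ = _ := by rw [e, e']; ring

theorem RedQ.inv {z : LaurentSeries Kbar} {α β : LaurentSeries (IsLocalRing.ResidueField A)}
    (h : RedQ A z α β) : RedQ A z⁻¹ β α := by
  obtain ⟨hα, hβ, c, a, b, hc, rfl, rfl, e⟩ := h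
  refine ⟨hβ, hα, c⁻¹, b, a, inv_ne_zero hc, rfl, rfl, ?_⟩
  have hz : z ≠ 0 := by
    rintro rfl
    rw [zero_mul] at e
    exact mul_ne_zero (C_ne_zero' hc) (incl_ne_zero_of_red A hα) e.symm
  have h1 : incl A a = HahnSeries.C c⁻¹ * (z * incl A b) := by
    rw [e, ← mul_assoc, ← map_mul, inv_mul_cancel₀ hc, map_one, one_mul]
  rw [h1]
  calc z⁻¹ * (HahnSeries.C c⁻¹ * (z * incl A b)) = (z⁻¹ * z) * (HahnSeries.C c⁻¹ * incl A b) := by
        ring
    _ = _ := by rw [inv_mul_cancel₀ hz, one_mul]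

theorem RedQ.pow {z : LaurentSeries Kbar} {α β : LaurentSeries (IsLocalRing.ResidueField A)}
    (h : RedQ A z α β) (m : ℕ) : RedQ A (z ^ m) (α ^ m) (β ^ m) := by
  induction m with
  | zero => simpa using RedQ.one
  | succ m ih => rw [pow_succ, pow_succ, pow_succ]; exact ih.mul h

theorem RedQ.prod {ι : Type*} (s : Finset ι) (z : ι → LaurentSeries Kbar)
    (α β : ι → LaurentSeries (IsLocalRing.ResidueField A)) (h : ∀ i ∈ s, RedQ A (z i) (α i) (β i)) :
    RedQ A (∏ i ∈ s, z i) (∏ i ∈ s, α i) (∏ i ∈ s, β i) := by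
  classical
  induction s using Finset.induction_on with
  | empty => simpa using RedQ.one
  | insert a s ha ih =>
    rw [Finset.prod_insert ha, Finset.prod_insert ha, Finset.prod_insert ha]
    exact (h a (Finset.mem_insert_self a s)).mul (ih fun i hi => h i (Finset.mem_insert_of_mem hi))

/-- transport along a ring endomorphism which is compatible with a map on reductions -/
theorem RedQ.map {z : LaurentSeries Kbar} {α β : LaurentSeries (IsLocalRing.ResidueField A)}
    (h : RedQ A z α β) (φ : LaurentSeries Kbar →+* LaurentSeries Kbar)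
    (ψ : LaurentSeries (IsLocalRing.ResidueField A) → LaurentSeries (IsLocalRing.ResidueField A))
    (hC : ∀ c : Kbar, c ≠ 0 → ∃ c' : Kbar, c' ≠ 0 ∧ φ (HahnSeries.C c) = HahnSeries.C c')
    (hψ : ∀ x, x ≠ 0 → ψ x ≠ 0)
    (hex : ∀ a : LaurentSeries A, ∃ a' : LaurentSeries A,
      incl A a' = φ (incl A a) ∧ red A a' = ψ (red A a)) :
    RedQ A (φ z) (ψ α) (ψ β) := by
  obtain ⟨hα, hβ, c, a, b, hc, rfl, rfl, e⟩ := h
  obtain ⟨c', hc', hcc⟩ := hC c hc
  obtain ⟨a', ha1, ha2⟩ := hex a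
  obtain ⟨b', hb1, hb2⟩ := hex b
  refine ⟨hψ _ hα, hψ _ hβ, c', a', b', hc', ha2, hb2, ?_⟩
  rw [ha1, hb1, ← hcc, ← map_mul, ← map_mul, e]

theorem RedQ.qExpand {z : LaurentSeries Kbar} {α β : LaurentSeries (IsLocalRing.ResidueField A)}
    (h : RedQ A z α β) (m : ℕ) [NeZero m] :
    RedQ A (ModularCurve.qExpand Kbar m z) (ModularCurve.qExpand _ m α)
      (ModularCurve.qExpand _ m β) :=
  h.map (ModularCurve.qExpand Kbar m) (ModularCurve.qExpand _ m)
    (fun c hc => ⟨c, hc, qExpand_C m c⟩)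
    (fun x hx h0 => hx (qExpand_injective m (by rw [h0, map_zero])))
    (fun a => ⟨ModularCurve.qExpand A m a, GAL.E.coeffMap_qExpand_comm _ m a,
      GAL.E.coeffMap_qExpand_comm _ m a⟩)

theorem RedQ.inertia {z : LaurentSeries Kbar} {α β : LaurentSeries (IsLocalRing.ResidueField A)}
    (h : RedQ A z α β) {σ : GQ} (hσ : σ ∈ A.inertiaSubgroupIn ℚ) :
    RedQ A (coeffMap (σ : Kbar →+* Kbar) z) α β :=
  h.map (coeffMap (σ : Kbar →+* Kbar)) id
    (fun c hc => ⟨σ c, (map_ne_zero _).2 hc, coeffMap_C' _ c⟩) (fun _ hx => hx)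
    (fun a => GAL.E.exists_gal_of_inertia A σ hσ a)

theorem coeffMap_frobenius_ne_zero {k : Type*} [Field k] (p : ℕ) [Fact p.Prime] [CharP k p]
    {x : LaurentSeries k} (hx : x ≠ 0) : coeffMap (frobenius k p) x ≠ 0 := by
  intro h
  have h1 := GAL.E.pow_char_eq_qExpand p x
  rw [h, map_zero] at h1
  exact hx ((pow_eq_zero_iff (Fact.out : p.Prime).ne_zero).1 h1)

theorem RedQ.frobenius {z : LaurentSeries Kbar} {α β : LaurentSeries (IsLocalRing.ResidueField A)}
    (h : RedQ A z α β) (p : ℕ) [Fact p.Prime] [CharP (IsLocalRing.ResidueField A) p] {σ : GQ}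
    (hσ : A.IsFrobeniusAt σ p) :
    RedQ A (coeffMap (σ : Kbar →+* Kbar) z)
      (coeffMap (_root_.frobenius (IsLocalRing.ResidueField A) p) α)
      (coeffMap (_root_.frobenius (IsLocalRing.ResidueField A) p) β) :=
  h.map (coeffMap (σ : Kbar →+* Kbar)) (coeffMap (_root_.frobenius (IsLocalRing.ResidueField A) p))
    (fun c hc => ⟨σ c, (map_ne_zero _).2 hc, coeffMap_C' _ c⟩)
    (fun _ hx => coeffMap_frobenius_ne_zero p hx)
    (fun a => GAL.E.exists_gal_of_frobenius A p σ hσ a)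

theorem RedQ.twist {z : LaurentSeries Kbar} {α β : LaurentSeries (IsLocalRing.ResidueField A)}
    (h : RedQ A z α β) {p : ℕ} (hp : p.Prime) (hA : A.LiesOverPrime p) (ζ : Kbarˣ)
    (hζ : ζ ^ p = 1) : RedQ A (B.twist ζ z) α β :=
  h.map (B.twist ζ) id (fun c hc => ⟨c, hc, twist_C ζ c⟩) (fun _ hx => hx)
    (fun a => GAL.E.exists_twist A p hp hA ζ hζ a)

/-- the product of the twists by the `p`-th roots of unity -/
theorem RedQ.prod_twist {z : LaurentSeries Kbar}
    {α β : LaurentSeries (IsLocalRing.ResidueField A)} (h : RedQ A z α β) {p : ℕ} [NeZero p]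
    (hp : p.Prime) (hA : A.LiesOverPrime p) :
    RedQ A (∏ b ∈ Finset.range p, B.twist (zetaK p ^ b) z) (α ^ p) (β ^ p) := by
  have h1 := RedQ.prod (A := A) (Finset.range p) (fun b => B.twist (zetaK p ^ b) z) (fun _ => α)
    (fun _ => β) (fun b _ => h.twist hp hA (zetaK p ^ b)
      (by rw [← pow_mul, mul_comm, pow_mul, (isPrimitiveRoot_zetaK p).pow_eq_one, one_pow]))
  simpa only [Finset.prod_const, Finset.card_range] using h1

/-- every nonzero element of `FB F₀` has a reduction -/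
theorem exists_redQ {F₀ : IntermediateField ℚ (LaurentSeries ℚ)} (hG : IntGen F₀)
    (A : ValuationSubring Kbar) (ℓ : ℕ) (hℓ : ℓ.Prime) (hA : A.LiesOverPrime ℓ)
    (u : FB F₀) (hu : u ≠ 0) : ∃ α β, RedQ A (u : LaurentSeries Kbar) α β := by
  obtain ⟨c, x, y, hx, hy, hc, hx0, hy0, h⟩ := exists_scaling hG A ℓ hℓ hA u hu
  refine ⟨red A x, red A y, hx0, hy0, c, x, y, hc, rfl, rfl, ?_⟩
  have h' : (u : LaurentSeries Kbar) = HahnSeries.C c * (incl A x / incl A y) := by
    rw [h]
    show algebraMap Kbar (LaurentSeries Kbar) c * (incl A x / incl A y) = _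
    rw [GAL.E.scaling_algebraMap]
  rw [h', mul_assoc, div_mul_cancel₀ _ (incl_ne_zero_of_red A hy0)]

end Fermat.Agent.S48.BB.E

end
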