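/-
S48, block BB, sub-block E (owner helper203).  THE DELIVERABLES: on the Kummer module `W1 F₀ n` of
`FB F₀` (`F₀` generated by series with integer coefficients), from the key lemma `KL1 F₀ A n`:
* inertia at `A` acts trivially (`rho_eq_one_of_inertia`);
* the Eichler-Shimura relation `Frob² - T_p Frob + p ⟨p⟩ = 0` (`HeckeOp1.eichler_shimura`).
-/
import Fermat.Agent.S48.BB.E.HeckeOp1
import Fermat.Agent.S48.BB.E.RedQ

set_option autoImplicit false

noncomputable section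

namespace Fermat.Agent.S48.BB.E

open ModularCurve AlgebraicCurve Fermat.Agent.S24 Fermat.Agent.S24.B Fermat.Agent.S48.BB.M
open Fermat.Agent.GAL.E (GQ incl red)

variable {F₀ : IntermediateField ℚ (LaurentSeries ℚ)}

/-- The way `KL1` is used: a Kummer unit which is a constant times a quotient of two `A`-integral
elements with the same nonzero reduction is an `n`-th power. -/
theorem mem_pows_of_KL1 {n : ℕ} (hn : 0 < n) {A : ValuationSubring Kbar} (hKL : KL1 F₀ A n)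
    (e : (FB F₀)ˣ) (he : e ∈ kum (FB F₀) n) (d : Kbar) (hd : d ≠ 0) (P Q : LaurentSeries A)
    (hP : incl A P ∈ laurentBaseChange Kbar F₀) (hQ : incl A Q ∈ laurentBaseChange Kbar F₀)
    (hPQ : red A P = red A Q) (hQ0 : red A Q ≠ 0)
    (h : (e : FB F₀) = algebraMap Kbar (FB F₀) d * ((⟨incl A P, hP⟩ : FB F₀) / ⟨incl A Q, hQ⟩)) :
    e ∈ pows (FB F₀) n := by
  have hd' : algebraMap Kbar (FB F₀) d ≠ 0 := (map_ne_zero _).2 hd
  have hk : IsKum (FB F₀) n ((⟨incl A P, hP⟩ : FB F₀) / ⟨incl A Q, hQ⟩) := by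
    have h2 : ((⟨incl A P, hP⟩ : FB F₀) / ⟨incl A Q, hQ⟩)
        = (e : FB F₀) * algebraMap Kbar (FB F₀) d⁻¹ := by
      rw [h, map_inv₀, mul_comm, ← mul_assoc, inv_mul_cancel₀ hd', one_mul]
    rw [h2]
    exact IsKum.mul he (isKum_algebraMap (FB F₀) n _)
  obtain ⟨w, hw⟩ := hKL P Q hP hQ hPQ hQ0 hk
  obtain ⟨d0, hd0⟩ := IsAlgClosed.exists_pow_nat_eq d hn
  refine mem_pows_of_eq_pow (w := algebraMap Kbar (FB F₀) d0 * w) ?_
  rw [h, hw, mul_pow, ← map_pow, hd0]

theorem cls_eq_of_mul_inv_mem {n : ℕ} (a b : kum (FB F₀) n)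
    (h : ((a * b⁻¹ : kum (FB F₀) n) : (FB F₀)ˣ) ∈ pows (FB F₀) n) : cls a = cls b := by
  rw [← sub_eq_zero, sub_eq_add_neg, ← cls_inv, ← cls_mul, cls_eq_zero_iff]
  exact h

/-- **The key criterion**: a Kummer unit `e` such that `e(q^m)` reduces to a constant (in the sense
of `RedQ`) is an `n`-th power. -/
theorem mem_pows_of_redQ {n : ℕ} (hn : 0 < n) (hG : IntGen F₀) {A : ValuationSubring Kbar} {ℓ : ℕ}
    (hℓ : ℓ.Prime) (hA : A.LiesOverPrime ℓ) (hKL : KL1 F₀ A n)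
    (e : (FB F₀)ˣ) (he : e ∈ kum (FB F₀) n) (m : ℕ) [NeZero m]
    (α : LaurentSeries (IsLocalRing.ResidueField A))
    (h : RedQ A (qExpand Kbar m ((e : FB F₀) : LaurentSeries Kbar)) α α) :
    e ∈ pows (FB F₀) n := by
  obtain ⟨d0, P, Q, hP, hQ, hd0, hP0, hQ0, hePQ⟩ := exists_scaling hG A ℓ hℓ hA (e : FB F₀) e.ne_zero
  obtain ⟨hα, -, c, a, b, hc, ha, hb, hab⟩ := h
  have hiQ : incl A Q ≠ 0 := incl_ne_zero_of_red A hQ0
  have he' : ((e : FB F₀) : LaurentSeries Kbar) = HahnSeries.C d0 * (incl A P / incl A Q) := by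
    rw [hePQ]
    show algebraMap Kbar (LaurentSeries Kbar) d0 * (incl A P / incl A Q) = _
    rw [GAL.E.scaling_algebraMap]
  have hVQ : qExpand Kbar m (incl A Q) ≠ 0 := fun h0 =>
    hiQ (qExpand_injective m (by rw [h0, map_zero]))
  -- the proportionality
  have h1 : incl A (qExpand A m P * b) =
      HahnSeries.C (c / d0) * incl A (a * qExpand A m Q) := by
    rw [map_mul, map_mul, GAL.E.coeffMap_qExpand_comm, GAL.E.coeffMap_qExpand_comm]
    rw [he', map_mul, map_div₀, qExpand_C] at hab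
    have hCd : (HahnSeries.C d0 : LaurentSeries Kbar) ≠ 0 := C_ne_zero' hd0
    rw [map_div₀]
    field_simp
    field_simp at hab
    linear_combination hab
  obtain ⟨t, ht, htres, hPQ⟩ := exists_unit_of_incl_eq A (c / d0) _ _ h1
    (by
      rw [map_mul, GAL.E.coeffMap_qExpand_comm, hb]
      exact mul_ne_zero (fun h0 => hP0 (qExpand_injective m (by rw [h0, map_zero]))) hα)
    (by
      rw [map_mul, GAL.E.coeffMap_qExpand_comm, ha]
      exact mul_ne_zero hα (fun h0 => hQ0 (qExpand_injective m (by rw [h0, map_zero]))))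
  have ht0 : (t : Kbar) ≠ 0 := by rw [ht]; exact div_ne_zero hc hd0
  -- the reductions are proportional
  have h2 : red A P = red A (HahnSeries.C t * Q) := by
    have h3 := congrArg (red A) hPQ
    rw [map_mul, map_mul, map_mul, GAL.E.coeffMap_qExpand_comm, GAL.E.coeffMap_qExpand_comm, ha, hb,
      coeffMap_C'] at h3
    apply qExpand_injective (R := IsLocalRing.ResidueField A) m
    rw [map_mul, map_mul, coeffMap_C', qExpand_C]
    apply mul_right_cancel₀ hα
    rw [h3]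
    ring
  have hQ' : incl A (HahnSeries.C t * Q) ∈ laurentBaseChange Kbar F₀ := by
    rw [map_mul, coeffMap_C']
    exact mul_mem (C_mem_FB F₀ _) hQ
  refine mem_pows_of_KL1 hn hKL e he (d0 * t) (mul_ne_zero hd0 ht0) P (HahnSeries.C t * Q) hP hQ' h2
    ?_ ?_
  · rw [map_mul, coeffMap_C']
    exact mul_ne_zero (C_ne_zero' htres) hQ0
  · apply Subtype.ext
    rw [he']
    show _ = algebraMap Kbar (LaurentSeries Kbar) (d0 * t) *
      (incl A P / incl A (HahnSeries.C t * Q))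
    rw [GAL.E.scaling_algebraMap, map_mul, map_mul, coeffMap_C']
    have hCt : (HahnSeries.C (t : Kbar) : LaurentSeries Kbar) ≠ 0 := C_ne_zero' ht0
    show _ = HahnSeries.C d0 * HahnSeries.C (t : Kbar) *
      (incl A P / (HahnSeries.C (t : Kbar) * incl A Q))
    field_simp

/-- **Inertia acts trivially.** -/
theorem rho_eq_one_of_inertia (hG : IntGen F₀) (n : ℕ) (hn : 0 < n) (A : ValuationSubring Kbar)
    (ℓ : ℕ) (hℓ : ℓ.Prime) (hA : A.LiesOverPrime ℓ) (hKL : KL1 F₀ A n) (σ : GQ)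
    (hσ : σ ∈ A.inertiaSubgroupIn ℚ) : rho F₀ n σ = 1 := by
  refine AddMonoidHom.ext fun w => ?_
  obtain ⟨u, rfl⟩ := cls_surjective w
  show rho F₀ n σ (cls u) = cls u
  rw [rho_cls]
  apply cls_eq_of_mul_inv_mem
  set u0 : FB F₀ := ((u : (FB F₀)ˣ) : FB F₀) with hu0
  have hu0ne : u0 ≠ 0 := Units.ne_zero _
  obtain ⟨α, β, hαβ⟩ := exists_redQ hG A ℓ hℓ hA u0 hu0ne
  refine mem_pows_of_redQ hn hG hℓ hA hKL _ (Subtype.coe_prop _) 1 (α * β) ?_
  rw [qExpand_one_apply]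
  have h1 := (hαβ.inertia hσ).mul hαβ.inv
  rw [mul_comm β α] at h1
  convert h1 using 1
  rw [Subgroup.coe_mul, Subgroup.coe_inv, Units.val_mul, Units.val_inv_eq_inv_val]
  rfl

/-- **The Eichler-Shimura relation.** -/
theorem HeckeOp1.eichler_shimura {p : ℕ} [NeZero p] (H : HeckeOp1 F₀ p) (hG : IntGen F₀) (n : ℕ)
    (hn : 0 < n) (hp : p.Prime) (A : ValuationSubring Kbar) (hA : A.LiesOverPrime p)
    (hKL : KL1 F₀ A n) (σ : GQ) (hσ : A.IsFrobeniusAt σ p) (x : W1 F₀ n) :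
    rho F₀ n σ (rho F₀ n σ x) - H.TW n (rho F₀ n σ x) + p • H.DW n x = 0 := by
  obtain ⟨u, rfl⟩ := cls_surjective x
  have : Fact p.Prime := ⟨hp⟩
  have : CharP (IsLocalRing.ResidueField A) p := GAL.E.charP_residueField A p hp hA
  rw [rho_cls, rho_cls, H.TW_cls, H.DW_cls, ← cls_pow]
  have key : ∀ a b c : kum (FB F₀) n,
      ((a * b⁻¹ * c : kum (FB F₀) n) : (FB F₀)ˣ) ∈ pows (FB F₀) n → cls a - cls b + cls c = 0 := by
    intro a b c h
    have e1 : cls a - cls b = cls a + - cls b := sub_eq_add_neg (G := W (FB F₀) n) _ _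
    rw [e1, ← cls_inv, ← cls_mul, ← cls_mul, cls_eq_zero_iff]
    exact h
  apply key
  set u0 : FB F₀ := ((u : (FB F₀)ˣ) : FB F₀) with hu0
  have hu0ne : u0 ≠ 0 := Units.ne_zero _
  have hv0ne : H.D u0 ≠ 0 := (map_ne_zero_iff _ H.D.injective).2 hu0ne
  obtain ⟨α, β, hu⟩ := exists_redQ hG A p hp hA u0 hu0ne
  obtain ⟨α', β', hv⟩ := exists_redQ hG A p hp hA (H.D u0) hv0ne
  set Fr := coeffMap (frobenius (IsLocalRing.ResidueField A) p) with hFr
  -- the three factors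
  have h1 : RedQ A ((galF F₀ σ u0 : FB F₀) : LaurentSeries Kbar) (Fr α) (Fr β) :=
    hu.frobenius p hσ
  have h2 : RedQ A ((galF F₀ σ (galF F₀ σ u0) : FB F₀) : LaurentSeries Kbar) (Fr (Fr α))
      (Fr (Fr β)) := h1.frobenius p hσ
  have h3 : RedQ A ((H.D (galF F₀ σ u0) : FB F₀) : LaurentSeries Kbar) (Fr α') (Fr β') := by
    rw [← H.galF_D]
    exact hv.frobenius p hσ
  have h4 : RedQ A (qExpand Kbar p ((H.T (galF F₀ σ u0) : FB F₀) : LaurentSeries Kbar))
      (qExpand _ (p * p) (Fr α') * Fr α ^ p) (qExpand _ (p * p) (Fr β') * Fr β ^ p) := by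
    rw [H.qExpand_T]
    exact (h3.qExpand (p * p)).mul (h1.prod_twist hp hA)
  have h5 := ((h2.qExpand p).mul h4.inv).mul ((hv.qExpand p).pow p)
  refine mem_pows_of_redQ hn hG hp hA hKL _ (Subtype.coe_prop _) p
    (qExpand _ p (Fr (Fr α)) * (qExpand _ (p * p) (Fr β') * Fr β ^ p) * qExpand _ p α' ^ p) ?_
  convert h5 using 1
  · rw [Subgroup.coe_mul, Subgroup.coe_mul, Subgroup.coe_inv, Subgroup.coe_pow, Units.val_mul,
      Units.val_mul, Units.val_inv_eq_inv_val, Units.val_pow_eq_pow_val]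
    show qExpand Kbar p (((galF F₀ σ (galF F₀ σ u0) : FB F₀) : LaurentSeries Kbar) *
      ((H.T (galF F₀ σ u0) : FB F₀) : LaurentSeries Kbar)⁻¹ *
      ((H.D u0 : FB F₀) : LaurentSeries Kbar) ^ p) = _
    rw [map_mul, map_mul, map_inv₀, map_pow]
  · rw [GAL.E.pow_char_eq_qExpand p (Fr α), GAL.E.pow_char_eq_qExpand p (Fr β), ← map_pow, ← map_pow,
      GAL.E.pow_char_eq_qExpand p α', GAL.E.pow_char_eq_qExpand p β', qExpand_qExpand,
      qExpand_qExpand]
    ring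

end Fermat.Agent.S48.BB.E

end
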