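/-
S48, block BB, sub-block E (owner helper203).  The field `F1Q M r` is generated by series with integer
coefficients.
-/
import Fermat.Agent.S48.BB.E.Scaling

set_option autoImplicit false

noncomputable section

namespace Fermat.Agent.S48.BB.E

open ModularCurve AlgebraicCurve Fermat.Agent.S24

/-- the coefficients of `u_a` are integers -/
theorem exists_int_coeff_uQ (M : ℕ) (a : ZMod M) (m : ℤ) : ∃ n : ℤ, (uQ M a).coeff m = (n : ℚ) := by
  have htP : tP M a = (PowerSeries.mk fun n => IS.cB M a n).map (Int.castRingHom ℚ) := by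
    ext n
    rw [tP, PowerSeries.coeff_mk, PowerSeries.coeff_map, PowerSeries.coeff_mk]
    rfl
  rw [uQ, HahnSeries.coeff_single_mul, one_mul]
  rcases lt_or_ge (m - -1) 0 with h | h
  · exact ⟨0, by rw [ofPowerSeries_coeff_of_neg _ h, Int.cast_zero]⟩
  · obtain ⟨i, hi⟩ := Int.eq_ofNat_of_zero_le h
    rw [hi, HahnSeries.ofPowerSeries_apply_coeff, htP, etaInvQ, ← map_pow, ← map_mul,
      PowerSeries.coeff_map]
    exact ⟨_, rfl⟩

/-- the coefficients of `j(q^d)` are integers -/
theorem exists_int_coeff_qExpand_jq (d : ℕ) [NeZero d] (k : ℤ) :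
    ∃ n : ℤ, (qExpand ℚ d jq).coeff k = (n : ℚ) := by
  by_cases hk : (d : ℤ) ∣ k
  · obtain ⟨m, rfl⟩ := hk
    rw [qExpand_coeff_mul]
    exact GAL.E.exists_int_coeff_jq m
  · exact ⟨0, by rw [qExpand_coeff_of_not_dvd _ _ hk, Int.cast_zero]⟩

theorem intGen_modularFunctionFieldFull (N : ℕ) : IntGen (modularFunctionFieldFull N) := by
  refine ⟨divisorExpansions N, rfl, ?_⟩
  rintro _ ⟨d, hne, -, rfl⟩ k
  exact exists_int_coeff_qExpand_jq d k

theorem intGen_F1Q (M r : ℕ) [NeZero (M * r)] : IntGen (F1Q M r) := by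
  refine IntGen.sup ⟨Set.range (uQ M), rfl, ?_⟩ (intGen_modularFunctionFieldFull (M * r))
  rintro _ ⟨a, rfl⟩ k
  exact exists_int_coeff_uQ M a k

end Fermat.Agent.S48.BB.E

end
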