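/-
S48, block BB, sub-block E (owner helper203).  Every element of `FB F₀`, hence every class of the
Kummer module `W1 F₀ n`, is fixed by an open subgroup of `G_ℚ` (port of `GAL/E/FiniteLevel`).
-/
import Fermat.Agent.S48.BB.E.Defs
import Fermat.Agent.GAL.E.FiniteLevel

set_option autoImplicit false

noncomputable section

namespace Fermat.Agent.S48.BB.E

open ModularCurve AlgebraicCurve Fermat.Agent.S24 Fermat.Agent.S48.BB.M
open Fermat.Agent.GAL.E (GQ incl red)

variable (F₀ : IntermediateField ℚ (LaurentSeries ℚ))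

/-- every element of `FB F₀` is fixed by an open subgroup of `G_ℚ` -/
theorem exists_finite_level (u : FB F₀) :
    ∃ L : IntermediateField ℚ Kbar, FiniteDimensional ℚ L ∧
      ∀ σ : GQ, (∀ x ∈ L, σ x = x) → galF F₀ σ u = u := by
  have halg : Algebra.IsAlgebraic ℚ Kbar := AlgebraicClosure.isAlgebraic ℚ
  obtain ⟨K₀, hK₀, y, -, hy⟩ :=
    Fermat.Agent.S18.Descent.exists_definedOver (Ω := Kbar) (F₀ := F₀)
      (x := (u : LaurentSeries Kbar)) u.2
  refine ⟨K₀, hK₀, fun σ hσ => Subtype.ext ?_⟩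
  rw [coe_galF, ← hy, coeffMap_coeffMap]
  exact coeffMap_congr (RingHom.ext fun c => hσ _ c.2) y

/-- every class of the Kummer module is fixed by an open subgroup of `G_ℚ` -/
theorem exists_finite_level_W (n : ℕ) (x : W1 F₀ n) :
    ∃ L : IntermediateField ℚ Kbar, FiniteDimensional ℚ L ∧
      ∀ σ : GQ, (∀ y ∈ L, σ y = y) → rho F₀ n σ x = x := by
  obtain ⟨u, rfl⟩ := cls_surjective x
  obtain ⟨L, hL, h⟩ := exists_finite_level F₀ ((u : (FB F₀)ˣ) : FB F₀)
  refine ⟨L, hL, fun σ hσ => ?_⟩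
  rw [rho_cls]
  exact congrArg cls (Subtype.ext (Units.ext (h σ hσ)))

/-- if the Kummer module is finite, `rho` is trivial on an open subgroup -/
theorem exists_finite_level_rho (n : ℕ) [Finite (W1 F₀ n)] :
    ∃ L : IntermediateField ℚ Kbar, FiniteDimensional ℚ L ∧
      ∀ σ : GQ, (∀ y ∈ L, σ y = y) → rho F₀ n σ = 1 := by
  obtain ⟨L, hL, h⟩ := GAL.E.exists_finite_level_of_finite
    (fun (x : W1 F₀ n) σ => rho F₀ n σ x = x) (exists_finite_level_W F₀ n)
  exact ⟨L, hL, fun σ hσ => AddMonoidHom.ext fun x => h σ hσ x⟩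

end Fermat.Agent.S48.BB.E

end
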