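/-
S48, block BB, sub-block E (owner helper203).  The fields `ρ_one, ρ_mul, T_ρ, D_ρ, openStab, unramified,
eichlerShimura` of `Top.KummerPackage1`, in the shapes of the contract, for
`W := W1 (F1Q M 1) n = M.W (FB (F1Q M 1)) n`, `ρ := rho (F1Q M 1) n`, `T p := (Hop p).TW n`,
`D p := (Hop p).DW n`, from the deliverable `KL.KL1Statement` of block KL.
-/
import Fermat.Agent.S48.BB.E.Main
import Fermat.Agent.S48.BB.E.FiniteLevel
import Fermat.Agent.S48.BB.E.IntGenF1Q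
import Fermat.Agent.S48.BB.KL.Defs
import Fermat.Agent.S48.Defs

set_option autoImplicit false

noncomputable section

namespace Fermat.Agent.S48.BB.E

open ModularCurve AlgebraicCurve Fermat.Agent.S24 Fermat.Agent.S48.BB.M

variable {F₀ : IntermediateField ℚ (LaurentSeries ℚ)}

theorem KL1_iff_KLF (A : ValuationSubring Kbar) (n : ℕ) : KL1 F₀ A n ↔ KL.KLF F₀ A n := Iff.rfl

theorem pkg_rho_one (n : ℕ) (w : W1 F₀ n) : rho F₀ n 1 w = w := by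
  rw [map_one]
  rfl

theorem pkg_rho_mul (n : ℕ) (σ τ : GQ) (w : W1 F₀ n) :
    rho F₀ n (σ * τ) w = rho F₀ n σ (rho F₀ n τ w) := by
  rw [map_mul]
  rfl

theorem pkg_T_rho {p : ℕ} [NeZero p] (H : HeckeOp1 F₀ p) (n : ℕ) (σ : GQ) (w : W1 F₀ n) :
    H.TW n (rho F₀ n σ w) = rho F₀ n σ (H.TW n w) :=
  (DFunLike.congr_fun (H.commute_rho_TW n σ) w).symm

theorem pkg_D_rho {p : ℕ} [NeZero p] (H : HeckeOp1 F₀ p) (n : ℕ) (σ : GQ) (w : W1 F₀ n) :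
    H.DW n (rho F₀ n σ w) = rho F₀ n σ (H.DW n w) :=
  (DFunLike.congr_fun (H.commute_rho_DW n σ) w).symm

theorem pkg_openStab (n : ℕ) (w : W1 F₀ n) :
    ∃ L : IntermediateField ℚ (AlgebraicClosure ℚ), FiniteDimensional ℚ L ∧
      ∀ σ : GQ, (∀ x ∈ L, σ x = x) → rho F₀ n σ w = w :=
  exists_finite_level_W F₀ n w

/-- generic form -/
theorem pkg_unramified_of_KLF (hG : IntGen F₀) {n : ℕ} (hn : 0 < n) {q : ℕ} (hq : q.Prime)
    (hKL : ∀ A : ValuationSubring Kbar, A.LiesOverPrime q → KL.KLF F₀ A n)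
    (σ : GQ) (hσ : IsInert σ q) (w : W1 F₀ n) : rho F₀ n σ w = w := by
  obtain ⟨A, hA, hσA⟩ := hσ
  rw [rho_eq_one_of_inertia hG n hn A q hq hA (hKL A hA) σ hσA]
  rfl

/-- generic form -/
theorem pkg_eichlerShimura_of_KLF (hG : IntGen F₀) {n : ℕ} (hn : 0 < n) {p : ℕ} [NeZero p]
    (hp : p.Prime) (H : HeckeOp1 F₀ p)
    (hKL : ∀ A : ValuationSubring Kbar, A.LiesOverPrime p → KL.KLF F₀ A n)
    (σ : GQ) (hσ : IsFrob σ p) (w : W1 F₀ n) :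
    rho F₀ n σ (rho F₀ n σ w) - H.TW n (rho F₀ n σ w) + p • H.DW n w = 0 := by
  obtain ⟨A, hA, hσA⟩ := hσ
  exact H.eichler_shimura hG n hn hp A hA (hKL A hA) σ hσA w

/-- field `unramified` of `Top.KummerPackage1` -/
theorem pkg_unramified (hKL : KL.KL1Statement) (M : ℕ) [NeZero (M * 1)] {n : ℕ} (hn : 0 < n)
    (hn6 : n.Coprime 6) (q : ℕ) (hq : q.Prime) (hqM : ¬ q ∣ M) (hqn : ¬ q ∣ n) (σ : GQ)
    (hσ : IsInert σ q) (w : W1 (F1Q M 1) n) : rho (F1Q M 1) n σ w = w :=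
  have : Fact q.Prime := ⟨hq⟩
  pkg_unramified_of_KLF (intGen_F1Q M 1) hn hq (fun A hA => hKL M q hqM A hA n hqn hn6) σ hσ w

/-- field `eichlerShimura` of `Top.KummerPackage1` -/
theorem pkg_eichlerShimura (hKL : KL.KL1Statement) (M : ℕ) [NeZero (M * 1)] {n : ℕ} (hn : 0 < n)
    (hn6 : n.Coprime 6) (p : ℕ) [NeZero p] (hp : p.Prime) (hpM : ¬ p ∣ M) (hpn : ¬ p ∣ n)
    (H : HeckeOp1 (F1Q M 1) p) (σ : GQ) (hσ : IsFrob σ p) (w : W1 (F1Q M 1) n) :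
    rho (F1Q M 1) n σ (rho (F1Q M 1) n σ w) - H.TW n (rho (F1Q M 1) n σ w) + p • H.DW n w = 0 :=
  have : Fact p.Prime := ⟨hp⟩
  pkg_eichlerShimura_of_KLF (intGen_F1Q M 1) hn hp H (fun A hA => hKL M p hpM A hA n hpn hn6) σ hσ w

end Fermat.Agent.S48.BB.E

end
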